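import Fermat.Agent.LambdaForms.Lam
import Fermat.Agent.OrdinaryProj.Eigen

/-!
# The Eisenstein family of the class `0`

`((1 + p) ^ k - 1) (-2) G*_k`, `p - 1 ∣ k`, has coefficients in `Λ`: the constant because Voronoi's
sums are elements of `Λ` tending to it, and it is a unit by von Staudt. Normalised it is a family
of forms of weight `(0, s)` congruent to `1`.
-/

set_option autoImplicit false
set_option linter.unusedSectionVars false

noncomputable section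

open PowerSeries Filter Topology

namespace FA.LambdaForms

open FA.PadicForms FA.PadicIwasawa FA.OrdinaryProj FA.OrderTheta

variable {p : ℕ} [Fact p.Prime]

local notation "Λ" => PowerSeries ℤ_[p]

/-- `x ^ s` on the class `0`, in `Λ`. -/
def unitPow (x : ℤ_[p]) : Λ := onePlus (logOne x * Ring.inverse ((p - 1 : ℕ) : ℤ_[p]))

theorem isUnit_pred (h5 : 5 ≤ p) : IsUnit (((p - 1 : ℕ)) : ℤ_[p]) :=
  PadicInt.isUnit_iff.2 (le_antisymm
    (PadicInt.norm_le_one _) (not_lt.1 fun hlt => by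
      rw [← Int.cast_natCast, PadicInt.norm_int_lt_one_iff_dvd, Int.natCast_dvd_natCast] at hlt
      have := Nat.le_of_dvd (by omega) hlt
      omega))

theorem isUnit_natCast {d : ℕ} (hd : ¬p ∣ d) : IsUnit (d : ℤ_[p]) :=
  PadicInt.isUnit_iff.2 (le_antisymm (PadicInt.norm_le_one _) (not_lt.1 fun hlt => hd (by
    rwa [← Int.cast_natCast, PadicInt.norm_int_lt_one_iff_dvd, Int.natCast_dvd_natCast] at hlt)))

variable {hp2 : p ≠ 2}

theorem evalLam_unitPow (h5 : 5 ≤ p) {x : ℤ_[p]} (hx : IsUnit x) {m : ℕ} (hm : p - 1 ∣ m) :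
    evalLam hp2 (m : ℤ_[p]) (unitPow x) = x ^ m := by
  obtain ⟨t, rfl⟩ := hm
  rw [unitPow, evalLam_onePlus, Nat.cast_mul, mul_assoc, ← mul_assoc (Ring.inverse _),
    Ring.inverse_mul_cancel _ (isUnit_pred h5), one_mul, mul_comm, ← nsmul_eq_mul,
    AddChar.map_nsmul_eq_pow, expOne_logOne hp2 hx, ← pow_mul]

/-- `σ*_(s - 1)` in `Λ`. -/
def sigmaLam (p : ℕ) [Fact p.Prime] (n : ℕ) : PowerSeries ℤ_[p] :=
  ∑ d ∈ n.divisors with ¬p ∣ d, C (Ring.inverse (d : ℤ_[p])) * unitPow (d : ℤ_[p])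

theorem evalLam_sigmaLam (h5 : 5 ≤ p) {m : ℕ} (hm1 : 1 ≤ m) (hm : p - 1 ∣ m) (n : ℕ) :
    evalLam hp2 (m : ℤ_[p]) (sigmaLam p n) = (starSum p m n : ℤ_[p]) := by
  rw [sigmaLam, map_sum, starSum, Nat.cast_sum]
  refine Finset.sum_congr rfl fun d hd => ?_
  have hu := isUnit_natCast (p := p) (Finset.mem_filter.1 hd).2
  rw [map_mul, evalLam_C, evalLam_unitPow h5 hu hm, Nat.cast_pow]
  obtain ⟨k, rfl⟩ : ∃ k, m = k + 1 := ⟨m - 1, by omega⟩
  rw [pow_succ', ← mul_assoc, Ring.inverse_mul_cancel _ hu, one_mul, Nat.add_sub_cancel]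

theorem sigmaLam_mul_prime {n : ℕ} (hn : n ≠ 0) : sigmaLam p (p * n) = sigmaLam p n := by
  classical
  have hp : p.Prime := Fact.out
  refine Finset.sum_congr (Finset.ext fun d => ?_) fun _ _ => rfl
  simp only [Finset.mem_filter, Nat.mem_divisors]
  constructor
  · rintro ⟨⟨h1, -⟩, h2⟩
    exact ⟨⟨((hp.coprime_iff_not_dvd.2 h2).symm).dvd_of_dvd_mul_left h1, hn⟩, h2⟩
  · rintro ⟨⟨h1, -⟩, h2⟩
    exact ⟨⟨h1.mul_left p, mul_ne_zero hp.ne_zero hn⟩, h2⟩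

/-- The Voronoi sum to the modulus `p ^ N` for the multiplier `1 + p`, in `Λ`. -/
def voronoiLam (p : ℕ) [Fact p.Prime] (N : ℕ) : PowerSeries ℤ_[p] :=
  ∑ r ∈ (Finset.range (p ^ N)).filter (fun r => ¬p ∣ r),
    C ((((1 + p) * r / p ^ N : ℕ) : ℤ_[p]) * Ring.inverse (((1 + p) * r : ℕ) : ℤ_[p])) *
      unitPow (((1 + p) * r : ℕ) : ℤ_[p])

theorem evalLam_voronoiLam (h5 : 5 ≤ p) {m : ℕ} (hm1 : 1 ≤ m) (hm : p - 1 ∣ m) (N : ℕ) :
    evalLam hp2 (m : ℤ_[p]) (voronoiLam p N) = (unitVoronoiSum p (1 + p) m N : ℤ_[p]) := by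
  have hp : p.Prime := Fact.out
  rw [voronoiLam, map_sum, unitVoronoiSum, Finset.mul_sum, Nat.cast_sum]
  refine Finset.sum_congr rfl fun r hr => ?_
  have h1 : ¬p ∣ 1 + p := fun h => hp.one_lt.ne' (Nat.dvd_one.1 ((Nat.dvd_add_left dvd_rfl).1 h))
  have hu : IsUnit (((1 + p) * r : ℕ) : ℤ_[p]) := isUnit_natCast fun h =>
    (hp.dvd_mul.1 h).elim h1 (Finset.mem_filter.1 hr).2
  rw [map_mul, evalLam_C, evalLam_unitPow h5 hu hm]
  obtain ⟨k, rfl⟩ : ∃ k, m = k + 1 := ⟨m - 1, by omega⟩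
  rw [Nat.add_sub_cancel, pow_succ', mul_assoc, ← mul_assoc (Ring.inverse _),
    Ring.inverse_mul_cancel _ hu, one_mul]
  simp only [Nat.cast_mul, Nat.cast_pow, mul_pow]
  ring

/-- **The constant term** in `Λ`. -/
theorem exists_constLam (h5 : 5 ≤ p) (hp2 : p ≠ 2) : ∃ θ : Λ,
    ∀ m : ℕ, 2 ≤ m → Even m → p - 1 ∣ m → ((evalLam hp2 (m : ℤ_[p]) θ : ℤ_[p]) : ℚ_[p]) =
      (((((1 : ℚ) + p) ^ m - 1) * eulerBernoulli p m : ℚ) : ℚ_[p]) := by
  obtain ⟨θ, φ, hφ, hθ⟩ := exists_subseq fun N => voronoiLam p (N + 1)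
  refine ⟨θ, fun m hm2 hev hm => tendsto_nhds_unique
    ((continuous_subtype_val.tendsto _).comp (tendsto_evalLam (hp2 := hp2) hθ (m : ℤ_[p]))) ?_⟩
  refine tendsto_iff_norm_sub_tendsto_zero.2 (Metric.tendsto_atTop.2 fun ε hε => ?_)
  obtain ⟨a, ha⟩ := exists_pow_neg_lt (p := p) hε
  refine ⟨a, fun i hi => ?_⟩
  rw [Real.dist_eq, sub_zero, abs_of_nonneg (norm_nonneg _)]
  have h1 : ((1 + p : ℕ) : ZMod p) ≠ 0 := by
    rw [Nat.cast_add, Nat.cast_one, ZMod.natCast_self, add_zero]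
    exact one_ne_zero
  obtain ⟨t, ht, e⟩ := unitVoronoi_congruence h5 (Nat.le_add_left 1 (φ i)) hm2 hev h1
  have e' : (((((1 : ℚ) + p) ^ m - 1) * eulerBernoulli p m : ℚ) : ℚ_[p]) =
      ((unitVoronoiSum p (1 + p) m (φ i + 1) : ℕ) : ℚ_[p]) +
        (p : ℚ_[p]) ^ (φ i + 1) * (t : ℚ_[p]) := by
    rw [eulerBernoulli]
    have := congrArg (fun q : ℚ => (q : ℚ_[p])) e
    push_cast at this ⊢
    exact this
  show ‖((evalLam hp2 (m : ℤ_[p]) (voronoiLam p (φ i + 1)) : ℤ_[p]) : ℚ_[p]) -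
    (((((1 : ℚ) + p) ^ m - 1) * eulerBernoulli p m : ℚ) : ℚ_[p])‖ < ε
  rw [e', evalLam_voronoiLam h5 (by omega) hm, PadicInt.coe_natCast, sub_add_cancel_left, norm_neg,
    norm_mul, Padic.norm_p_pow]
  refine lt_of_le_of_lt ((mul_le_of_le_one_right (zpow_pos' _).le (Padic.norm_rat_le_one ht)).trans
    ?_) ha
  exact pow_neg_mono (le_trans (hi.trans (hφ.id_le i)) (Nat.le_succ _))

theorem exists_pow_one_add (x : ℤ) (n : ℕ) : ∃ z : ℤ, (1 + x) ^ n = 1 + n * x + x ^ 2 * z := by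
  induction n with
  | zero => exact ⟨0, by simp⟩
  | succ n ih =>
    obtain ⟨z, hz⟩ := ih
    exact ⟨z + n + z * x, by rw [pow_succ, hz]; push_cast; ring⟩

/-- The constant is a unit. -/
theorem isUnit_constLam (h5 : 5 ≤ p) {θ : Λ}
    (hθ : ∀ m : ℕ, 2 ≤ m → Even m → p - 1 ∣ m → ((evalLam hp2 (m : ℤ_[p]) θ : ℤ_[p]) : ℚ_[p]) =
      (((((1 : ℚ) + p) ^ m - 1) * eulerBernoulli p m : ℚ) : ℚ_[p])) : IsUnit θ := by
  have hp : p.Prime := Fact.out
  obtain ⟨B, D, hBD, hD, hB⟩ := FA.HasseEis.exists_bernoulli (p := p) h5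
  have hB0 : (B : ZMod p) ≠ 0 := by rw [hB]; exact neg_ne_zero.2 hD
  have hint : ∀ z : ℤ, (z : ZMod p) ≠ 0 → ‖(z : ℚ_[p])‖ = 1 := fun z hz =>
    le_antisymm (Padic.norm_int_le_one z) (not_lt.1 fun h =>
      hz ((ZMod.intCast_zmod_eq_zero_iff_dvd _ _).2 ((Padic.norm_intCast_lt_one_iff (p := p)).1 h)))
  obtain ⟨n, hn⟩ : ∃ n, n = p - 1 := ⟨_, rfl⟩
  obtain ⟨z, hz⟩ := exists_pow_one_add (p : ℤ) n
  have hpn : (p : ZMod p) = 0 := ZMod.natCast_self p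
  have hn0 : (n : ZMod p) ≠ 0 := fun e => by
    rw [ZMod.natCast_eq_zero_iff] at e
    have := Nat.le_of_dvd (by omega) e
    omega
  have h1 : ‖(((n : ℤ) + (p : ℤ) * z : ℤ) : ℚ_[p])‖ = 1 := hint _ (by simpa [hpn] using hn0)
  have h2 : ‖((1 - (p : ℤ) ^ (n - 1) : ℤ) : ℚ_[p])‖ = 1 := hint _ (by
    simp [zero_pow (show n - 1 ≠ 0 by omega)])
  have h3 : ‖((n : ℤ) : ℚ_[p])‖ = 1 := hint _ (by simpa using hn0)
  have h4 := hθ n (by omega) (hn ▸ hp.even_sub_one (by omega)) (hn ▸ dvd_rfl)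
  have hp0 : (p : ℚ) ≠ 0 := Nat.cast_ne_zero.2 hp.ne_zero
  have hD0 : (D : ℚ) ≠ 0 := Int.cast_ne_zero.2 fun e => hD (by rw [e]; simp)
  have e : (((1 : ℚ) + p) ^ n - 1) * eulerBernoulli p n =
      ((n : ℤ) + (p : ℤ) * z : ℤ) * ((1 - (p : ℤ) ^ (n - 1) : ℤ) : ℚ) *
        ((B : ℚ) / ((D : ℚ) * (n : ℤ))) := by
    have hz' : ((1 : ℚ) + p) ^ n = 1 + n * p + (p : ℚ) ^ 2 * z := by exact_mod_cast hz
    rw [hz', eulerBernoulli, ← hBD, hn]
    push_cast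
    field_simp
    ring
  rw [PowerSeries.isUnit_iff_constantCoeff]
  by_contra hu
  have h5' := toZMod_evalLam (hp2 := hp2) (n : ℤ_[p]) θ
  rw [toZMod_eq_zero_iff_norm.2 (PadicInt.not_isUnit_iff.1 hu), toZMod_eq_zero_iff_norm,
    PadicInt.norm_def, h4, e] at h5'
  push_cast at h5' h1 h2 h3
  rw [norm_mul, norm_mul, norm_div, norm_mul, hint D hD, hint B hB0, h1, h2, h3] at h5'
  norm_num at h5'

/-- **The unit family**: weight `(0, s)`, congruent to `1`, fixed by `U`. -/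
theorem exists_unit_family (h5 : 5 ≤ p) (hp2 : p ≠ 2) : ∃ E : PowerSeries Λ,
    (∀ s, IsIntForm ((0, s) : Weights p) (E.map (evalLam hp2 s))) ∧
    (∀ s, redSer p (E.map (evalLam hp2 s)) = 1) ∧
    (∀ n, coeff (p * n) E = coeff n E) ∧
    ∃ u : Λ, IsUnit u ∧ ∀ m : ℕ, 2 ≤ m → Even m → p - 1 ∣ m →
      C (((evalLam hp2 (m : ℤ_[p]) u : ℤ_[p]) : ℚ_[p])) *
          toQps p (E.map (evalLam hp2 (m : ℤ_[p]))) =
        C (-2 * ((1 + (p : ℚ_[p])) ^ m - 1)) * toQp p (eisStar p m) := by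
  have hp : p.Prime := Fact.out
  obtain ⟨θ, hθ⟩ := exists_constLam h5 hp2
  obtain ⟨θu, hθu⟩ := isUnit_constLam (hp2 := hp2) h5 hθ
  obtain ⟨F, hF⟩ : ∃ F : PowerSeries Λ, F = PowerSeries.mk fun n =>
      if n = 0 then θ else C (-2 : ℤ_[p]) * X * sigmaLam p n := ⟨_, rfl⟩
  have hspec : ∀ m : ℕ, 2 ≤ m → Even m → p - 1 ∣ m →
      toQps p (F.map (evalLam hp2 (m : ℤ_[p]))) =
        C (-2 * ((1 + (p : ℚ_[p])) ^ m - 1)) * toQp p (eisStar p m) := fun m hm2 hev hm =>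
    PowerSeries.ext fun n => by
      rw [coeff_toQps, coeff_map, coeff_C_mul, coeff_toQp, hF, coeff_mk, eisStar, coeff_mk]
      split_ifs with hn
      · rw [hθ m hm2 hev hm, eulerBernoulli]
        push_cast
        field_simp
      · rw [map_mul, map_mul, evalLam_C, evalLam_X, expOne_natCast,
          evalLam_sigmaLam h5 (by omega) hm, Rat.cast_natCast, PadicInt.coe_mul, PadicInt.coe_mul,
          PadicInt.coe_natCast, show ((-2 : ℤ_[p]) : ℚ_[p]) = -2 by rw [PadicInt.coe_neg]; rfl]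
        push_cast
        ring
  have hform : ∀ s, IsIntForm ((0, s) : Weights p) (F.map (evalLam hp2 s)) := fun s => by
    obtain ⟨v, hv⟩ : ∃ v : ℤ_[p], v = Ring.inverse ((p - 1 : ℕ) : ℤ_[p]) := ⟨_, rfl⟩
    obtain ⟨m, hm⟩ : ∃ m : ℕ → ℕ, ∀ i, m i = (p - 1) * ((s * v).appr i + p ^ i * (i + 1)) :=
      ⟨_, fun _ => rfl⟩
    have hms : ∀ i, ‖(m i : ℤ_[p]) - s‖ ≤ (p : ℝ) ^ (-(i : ℤ)) := fun i => by
      have e : (m i : ℤ_[p]) - s = ((p - 1 : ℕ) : ℤ_[p]) *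
          (-(s * v - ((s * v).appr i : ℤ_[p])) + (p : ℤ_[p]) ^ i * ((i + 1 : ℕ) : ℤ_[p])) := by
        have h1 : ((p - 1 : ℕ) : ℤ_[p]) * (s * v) = s := by
          rw [hv, mul_left_comm, Ring.mul_inverse_cancel _ (isUnit_pred h5), mul_one]
        rw [hm]
        push_cast
        linear_combination h1
      rw [e, norm_mul]
      refine (mul_le_of_le_one_left (norm_nonneg _) (PadicInt.norm_le_one _)).trans
        ((PadicInt.nonarchimedean _ _).trans (max_le ?_ ?_))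
      · rw [norm_neg, PadicInt.norm_le_pow_iff_mem_span_pow]
        exact PadicInt.appr_spec i (s * v)
      · rw [norm_mul, PadicInt.norm_p_pow]
        exact mul_le_of_le_one_right (zpow_pos' _).le (PadicInt.norm_le_one _)
    have hlim : Tendsto (fun i => (m i : ℤ_[p])) atTop (𝓝 s) := by
      refine tendsto_iff_norm_sub_tendsto_zero.2 (Metric.tendsto_atTop.2 fun ε hε => ?_)
      obtain ⟨a, ha⟩ := exists_pow_neg_lt (p := p) hε
      refine ⟨a, fun i hi => ?_⟩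
      rw [Real.dist_eq, sub_zero, abs_of_nonneg (norm_nonneg _)]
      exact ((hms i).trans (pow_neg_mono hi)).trans_lt ha
    refine IsPadicForm.of_approx fun a => ?_
    obtain ⟨i, hi, hia⟩ := (((tendsto_iff_norm_sub_tendsto_zero.1
      ((continuous_xAt.tendsto s).comp hlim)).eventually
        (ge_mem_nhds (zpow_pos' (p := p) (-(a : ℤ))))).and (eventually_ge_atTop a)).exists
    have hmev : Even (m i) := by rw [hm]; exact (hp.even_sub_one (by omega)).mul_right _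
    have hmd : p - 1 ∣ m i := hm i ▸ dvd_mul_right _ _
    have hm2 : 2 ≤ m i := by
      have : (p - 1) * 1 ≤ m i := hm i ▸ Nat.mul_le_mul_left _
        ((Nat.mul_pos (pow_pos hp.pos i) (Nat.succ_pos i)).trans_le (Nat.le_add_left _ _))
      omega
    refine ⟨toQps p (F.map (evalLam hp2 (m i : ℤ_[p]))), natWeight p (m i), ?_, ?_, ?_, fun n => ?_⟩
    · rw [hspec _ hm2 hmev hmd]
      exact (eisStar_limit h5 hmev hm2).1.C_mul _
    · show ((m i : ℕ) : ZMod (p - 1)) = 0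
      exact (ZMod.natCast_eq_zero_iff _ _).2 hmd
    · exact (hms i).trans (pow_neg_mono hia)
    · rw [map_sub, coeff_toQps, coeff_toQps, coeff_map, coeff_map, ← PadicInt.coe_sub,
        ← PadicInt.norm_def]
      exact (norm_evalLam_sub _ _ _).trans hi
  obtain ⟨E, hE⟩ : ∃ E : PowerSeries Λ, E = C (↑θu⁻¹ : Λ) * F := ⟨_, rfl⟩
  refine ⟨E, fun s => ?_, fun s => ?_, fun n => ?_, θ, ⟨θu, hθu⟩, fun m hm2 hev hm => ?_⟩
  · rw [IsIntForm, hE, map_mul, map_C, map_mul, toQps, map_C]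
    exact IsPadicForm.C_mul (hform s) _
  · refine PowerSeries.ext fun n => ?_
    rw [coeff_redSer, coeff_map, hE, coeff_C_mul, hF, coeff_mk, coeff_one, map_mul]
    split_ifs with hn
    · rw [← map_mul, ← hθu, Units.inv_mul, map_one, map_one]
    · have hX : PadicInt.toZMod (expOne p s - 1) = 0 :=
        toZMod_eq_zero_iff_norm.2 (norm_expOne_sub_one_lt hp2 s)
      simp only [map_mul, evalLam_X, hX, mul_zero, zero_mul]
  · rw [hE, coeff_C_mul, coeff_C_mul, hF, coeff_mk, coeff_mk]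
    rcases eq_or_ne n 0 with rfl | hn
    · rw [mul_zero]
    · rw [if_neg hn, if_neg (mul_ne_zero hp.ne_zero hn), sigmaLam_mul_prime hn]
  · rw [← hspec m hm2 hev hm, hE, map_mul (PowerSeries.map (evalLam hp2 (m : ℤ_[p]))), map_C,
      map_mul (toQps p), toQps, map_C, ← mul_assoc, ← map_mul C,
      show PadicInt.Coe.ringHom (evalLam hp2 (m : ℤ_[p]) (↑θu⁻¹ : Λ)) =
        ((evalLam hp2 (m : ℤ_[p]) (↑θu⁻¹ : Λ) : ℤ_[p]) : ℚ_[p]) from rfl,
      ← PadicInt.coe_mul, ← map_mul (evalLam hp2 (m : ℤ_[p])), ← hθu, Units.mul_inv, map_one,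
      PadicInt.coe_one, map_one, one_mul]

end FA.LambdaForms

end
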