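import Fermat.Agent.LambdaForms.Eis

/-!
# Ordinary `Λ`-adic forms

A series over `Λ` is an ordinary form of class `c` if each of its values at `T = (1 + p) ^ s - 1` is
an ordinary integral form of weight `(c, s)`. The projector extends to families, as Iwasawa
functions are closed under limits; so a form fixed by a power of `U` modulo `p` lifts to a family.
-/

set_option autoImplicit false
set_option linter.unusedSectionVars false

noncomputable section

open PowerSeries Filter Topology

namespace FA.LambdaForms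

open FA.PadicForms FA.OrdinaryProj FA.SwinnertonDyer

variable {p : ℕ} [Fact p.Prime]

local notation "Λ" => PowerSeries ℤ_[p]

/-- The value of a family at `s`. -/
def spec (hp2 : p ≠ 2) (s : ℤ_[p]) : PowerSeries Λ →+* PowerSeries ℤ_[p] :=
  PowerSeries.map (evalLam hp2 s)

variable {hp2 : p ≠ 2} {c : ZMod (p - 1)} {F G : PowerSeries (PowerSeries ℤ_[p])}

@[simp]
theorem coeff_spec (s : ℤ_[p]) (F : PowerSeries Λ) (n : ℕ) :
    coeff n (spec hp2 s F) = evalLam hp2 s (coeff n F) := coeff_map _ _ _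

theorem spec_C (s : ℤ_[p]) (θ : Λ) : spec hp2 s (C θ) = C (evalLam hp2 s θ) := map_C _ _

theorem eq_of_spec (h : ∀ s, spec hp2 s F = spec hp2 s G) : F = G :=
  PowerSeries.ext fun n => evalLam_ext (hp2 := hp2) fun s => by
    simpa using congrArg (coeff n) (h s)

/-- **An ordinary `Λ`-adic form of class `c`.** -/
def IsLamOrd (hp2 : p ≠ 2) (c : ZMod (p - 1)) (F : PowerSeries Λ) : Prop :=
  ∀ s, IsIntForm ((c, s) : Weights p) (spec hp2 s F) ∧
    ordProj p (toQps p (spec hp2 s F)) = toQps p (spec hp2 s F)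

/-- The module of ordinary `Λ`-adic forms of class `c`. -/
def lamOrd (hp2 : p ≠ 2) (c : ZMod (p - 1)) : Submodule Λ (PowerSeries Λ) :=
  Submodule.span Λ {F | IsLamOrd hp2 c F}

theorem IsLamOrd.mem_ordPart (h5 : 5 ≤ p) (h : IsLamOrd hp2 c F) (s : ℤ_[p]) :
    toQps p (spec hp2 s F) ∈ ordPart ((c, s) : Weights p) :=
  (FA.OrdinaryProj.mem_ordPart h5).2 (h s)

theorem mem_lamOrd (h5 : 5 ≤ p) : F ∈ lamOrd hp2 c ↔ IsLamOrd hp2 c F := by
  refine ⟨fun h s => (FA.OrdinaryProj.mem_ordPart h5).1 ?_, fun h => Submodule.subset_span h⟩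
  induction h using Submodule.span_induction with
  | mem x hx => exact hx.mem_ordPart h5 s
  | zero => rw [map_zero, map_zero]; exact zero_mem _
  | add x y _ _ hx hy => rw [map_add, map_add]; exact add_mem hx hy
  | smul θ x _ hx =>
    rw [PowerSeries.smul_eq_C_mul, map_mul, spec_C, map_mul, toQps, map_C,
      ← PowerSeries.smul_eq_C_mul]
    exact Submodule.smul_mem _ _ hx

/-- A shift of the argument. -/
theorem exists_shift_family (a : ℤ_[p]) (F : PowerSeries Λ) :
    ∃ F' : PowerSeries Λ, ∀ s, spec hp2 s F' = spec hp2 (s + a) F := by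
  choose η hη using fun n => exists_shift (hp2 := hp2) a (coeff n F)
  exact ⟨PowerSeries.mk η, fun s => PowerSeries.ext fun n => by simp [hη]⟩

/-- **The projector on families.** -/
theorem exists_ordProj_family (h5 : 5 ≤ p)
    (hF : ∀ s, IsIntForm ((c, s) : Weights p) (spec hp2 s F)) :
    ∃ G : PowerSeries Λ, IsLamOrd hp2 c G ∧
      ∀ s, toQps p (spec hp2 s G) = ordProj p (toQps p (spec hp2 s F)) := by
  choose L hLf hLe hL using fun s => exists_int_ordProj h5 (hF s)
  have hiw : ∀ n, IsIw hp2 fun s => coeff n (L s) := fun n => by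
    refine IsIw.of_tendsto (fs := fun i s => evalLam hp2 s (coeff (p ^ i.factorial * n) F))
      (fun i => ⟨_, fun s => rfl⟩) fun s => ?_
    refine tendsto_iff_norm_sub_tendsto_zero.2 (Metric.tendsto_atTop.2 fun ε hε => ?_)
    obtain ⟨a, ha⟩ := exists_pow_neg_lt (p := p) hε
    obtain ⟨M, hM⟩ := eventually_atTop.1 (hL s a)
    refine ⟨M, fun i hi => ?_⟩
    rw [Real.dist_eq, sub_zero, abs_of_nonneg (norm_nonneg _), norm_sub_rev]
    refine lt_of_le_of_lt (norm_le_iff_dvd.2 ?_) ha
    have := pow_dvd_iff.1 (hM i hi) n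
    rwa [map_sub, coeff_uPow, coeff_spec] at this
  choose η hη using hiw
  have e : ∀ s, spec hp2 s (PowerSeries.mk η) = L s := fun s => PowerSeries.ext fun n => by
    rw [coeff_spec, coeff_mk, hη]
  refine ⟨PowerSeries.mk η, fun s => ⟨(e s).symm ▸ hLf s, ?_⟩, fun s => by rw [e, hLe]⟩
  rw [e, ← hLe, ordProj_idem h5 (hF s)]

/-- A constant family. -/
def constFam (g : PowerSeries ℤ_[p]) : PowerSeries Λ := PowerSeries.map (C : ℤ_[p] →+* Λ) g

theorem spec_constFam (s : ℤ_[p]) (g : PowerSeries ℤ_[p]) : spec hp2 s (constFam g) = g :=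
  PowerSeries.ext fun n => by simp [constFam]

/-- **Lifts to families**: a form modulo `p` fixed by a power of `U` is the reduction of every value
of an ordinary family of its class. -/
theorem exists_family_lift (h5 : 5 ≤ p) {k : ℕ} {v : PowerSeries (ZMod p)} (hv : v ∈ ordModP p k)
    (hc : (k : ZMod (p - 1)) = c) :
    ∃ G : PowerSeries Λ, IsLamOrd hp2 c G ∧ ∀ s, redSer p (spec hp2 s G) = v := by
  obtain ⟨hf, d, hd, hfix⟩ := (mem_ordModP h5).1 hv
  obtain ⟨S, g, hS, hg, hgv⟩ := exists_lift_classical hf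
  obtain ⟨E, hE, hE1, -, -⟩ := exists_unit_family h5 hp2
  obtain ⟨E', hE'⟩ := exists_shift_family (hp2 := hp2) (-(k : ℤ_[p])) E
  obtain ⟨F, hF⟩ : ∃ F, F = E' * constFam g := ⟨_, rfl⟩
  have hFform : ∀ s, IsIntForm ((c, s) : Weights p) (spec hp2 s F) := fun s => by
    have h1 := IsPadicForm.mul (hE (s + -(k : ℤ_[p]))) (hS.isPadicForm (p := p))
    rw [← hg, ← map_mul] at h1
    rw [hF, map_mul, spec_constFam, hE']
    have e : ((0, s + -(k : ℤ_[p])) : Weights p) + natWeight p k = (c, s) :=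
      Prod.ext ((zero_add _).trans hc) (neg_add_cancel_right s _)
    rw [e] at h1
    exact h1
  have hred : ∀ s, redSer p (spec hp2 s F) = v := fun s => by
    rw [hF, map_mul, spec_constFam, hE', map_mul, spec, hE1, hgv, one_mul]
  obtain ⟨G, hG, hGe⟩ := exists_ordProj_family h5 hFform
  refine ⟨G, hG, fun s => ?_⟩
  obtain ⟨L, -, hLe, -, hLr⟩ := redSer_ordProj h5 (hFform s) hd (by rw [hred]; exact hfix)
  rw [toQps_injective ((hGe s).trans hLe), hLr, hred]

/-- A root of an element of `Λ` gives a linear factor. -/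
theorem X_sub_C_dvd (s : ℤ_[p]) (θ : Λ) (h : evalLam hp2 s θ = 0) :
    (X - C (xAt s) : Λ) ∣ θ := by
  have hx := norm_xAt_lt hp2 s
  obtain ⟨q, hq⟩ : ∃ q : Λ, ∀ n, coeff n q = ∑' i, coeff (n + 1 + i) θ * xAt s ^ i :=
    ⟨PowerSeries.mk fun n => ∑' i, coeff (n + 1 + i) θ * xAt s ^ i, fun n => coeff_mk _ _⟩
  have hsum : ∀ n, Summable fun i => coeff (n + i) θ * xAt s ^ i := fun n => by
    have := (summable_term (PowerSeries.mk fun i => coeff (n + i) θ) hx).of_norm
    simpa using this
  have hrec : ∀ n, ∑' i, coeff (n + i) θ * xAt s ^ i = coeff n θ + xAt s * coeff n q := fun n => by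
    rw [(hsum n).tsum_eq_zero_add, pow_zero, mul_one, add_zero, hq,
      ← (hsum (n + 1)).tsum_mul_left (xAt s)]
    refine congrArg _ (tsum_congr fun i => ?_)
    rw [pow_succ', show n + (i + 1) = n + 1 + i by omega]
    ring
  refine ⟨q, PowerSeries.ext fun n => ?_⟩
  rw [sub_mul, map_sub, coeff_C_mul]
  rcases n with _ | n
  · rw [coeff_zero_X_mul]
    have h0 := hrec 0
    simp only [Nat.zero_add] at h0
    rw [← evalLam_apply (hp2 := hp2), h] at h0
    linear_combination -h0
  · rw [coeff_succ_X_mul]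
    have h1 := hrec (n + 1)
    rw [hq n]
    linear_combination -h1

end FA.LambdaForms

end
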