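import Fermat.Agent.LambdaForms.Families
import Mathlib.LinearAlgebra.Matrix.NonsingularInverse

/-!
# The ordinary `Λ`-adic forms are free of finite rank

Finitely many coefficients give functionals dual modulo the maximal ideal to the lifts of a basis;
so their matrix on the lifts is invertible over `Λ`.
-/

set_option autoImplicit false
set_option linter.unusedSectionVars false

noncomputable section

open PowerSeries Filter Topology Matrix

namespace FA.LambdaForms

open FA.PadicForms FA.OrdinaryProj FA.SwinnertonDyer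

variable {p : ℕ} [Fact p.Prime] {hp2 : p ≠ 2} {c : ZMod (p - 1)}

local notation "Λ" => PowerSeries ℤ_[p]

/-- A combination of coefficients. -/
def coeffComb {R : Type*} [CommRing R] (a : ℕ →₀ ZMod p) (g : PowerSeries R) : R :=
  a.sum fun n b => (b.val : R) * coeff n g

theorem map_coeffComb {R S : Type*} [CommRing R] [CommRing S] (φ : R →+* S) (a : ℕ →₀ ZMod p)
    (g : PowerSeries R) : φ (coeffComb a g) = coeffComb a (PowerSeries.map φ g) := by
  rw [coeffComb, coeffComb, map_finsuppSum]
  exact Finsupp.sum_congr fun n _ => by rw [map_mul, map_natCast, coeff_map]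

theorem coeffComb_sum {R ι : Type*} [CommRing R] (a : ℕ →₀ ZMod p) (t : Finset ι) (X : ι → R)
    (G : ι → PowerSeries R) :
    coeffComb a (∑ j ∈ t, C (X j) * G j) = ∑ j ∈ t, coeffComb a (G j) * X j := by
  simp only [coeffComb, Finsupp.sum, map_sum, coeff_C_mul, Finset.mul_sum, Finset.sum_mul]
  rw [Finset.sum_comm]
  exact Finset.sum_congr rfl fun j _ => Finset.sum_congr rfl fun n _ => by ring

theorem coeffComb_sub {R : Type*} [CommRing R] (a : ℕ →₀ ZMod p) (g h : PowerSeries R) :
    coeffComb a (g - h) = coeffComb a g - coeffComb a h := by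
  simp only [coeffComb, map_sub, mul_sub]
  exact Finsupp.sum_sub ..

/-- **The structure of the ordinary `Λ`-adic forms.** -/
theorem exists_lambda_basis (h5 : 5 ≤ p) {k : ℕ} (hk : 3 ≤ k) (hc : (k : ZMod (p - 1)) = c) :
    ∃ G : Fin (Module.finrank (ZMod p) ↥(ordModP p k)) → PowerSeries Λ,
      (∀ j, IsLamOrd hp2 c (G j)) ∧ LinearIndependent Λ G ∧
      lamOrd hp2 c = Submodule.span Λ (Set.range G) ∧
      (∀ s, LinearIndependent ℚ_[p] (fun j => toQps p (spec hp2 s (G j))) ∧
        ordPart ((c, s) : Weights p) =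
          Submodule.span ℚ_[p] (Set.range fun j => toQps p (spec hp2 s (G j)))) ∧
      (∀ s g, IsIntForm ((c, s) : Weights p) g → ordProj p (toQps p g) = toQps p g →
        ∃! x : Fin (Module.finrank (ZMod p) ↥(ordModP p k)) → ℤ_[p],
          g = ∑ j, C (x j) * spec hp2 s (G j)) ∧
      ∀ s F, IsLamOrd hp2 c F → spec hp2 s F = 0 →
        ∃ F', IsLamOrd hp2 c F' ∧ F = C (X - C (xAt s) : Λ) * F' := by
  classical
  have := finite_ordModP (p := p) h5 k
  have : Module.Finite (ZMod p) ↥(ordModP p k) := .of_finite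
  obtain ⟨b, -⟩ : ∃ b : Module.Basis (Fin (Module.finrank (ZMod p) ↥(ordModP p k))) (ZMod p)
      ↥(ordModP p k), True := ⟨Module.finBasis (ZMod p) _, trivial⟩
  choose G hG hGr using fun j => exists_family_lift (hp2 := hp2) h5 (b j).2 hc
  -- the reductions
  have e : ∀ s, (fun j => redSer p (spec hp2 s (G j))) = (ordModP p k).subtype ∘ b := fun s =>
    funext fun j => hGr j s
  have hli : ∀ s, LinearIndependent (ZMod p) fun j => redSer p (spec hp2 s (G j)) := fun s => by
    rw [e]
    exact b.linearIndependent.map' _ (Submodule.ker_subtype _)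
  have hspan : ∀ s, ordModP p k ≤
      Submodule.span (ZMod p) (Set.range fun j => redSer p (spec hp2 s (G j))) := fun s => by
    rw [e, Set.range_comp, Submodule.span_image, b.span_eq, Submodule.map_subtype_top]
  -- dual functionals
  have hind : LinearIndependent (ZMod p)
      fun j (n : ℕ) => coeff n ((b j : ↥(ordModP p k)) : PowerSeries (ZMod p)) := by
    refine b.linearIndependent.map' ((LinearMap.pi fun n : ℕ => coeff n).comp (ordModP p k).subtype)
      (LinearMap.ker_eq_bot.2 fun u v huv => Subtype.ext (PowerSeries.ext fun n => ?_))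
    exact congrFun huv n
  have hdual : ∀ i, ∃ a : ℕ →₀ ZMod p, ∀ j,
      coeffComb a ((b j : ↥(ordModP p k)) : PowerSeries (ZMod p)) = if i = j then 1 else 0 :=
    fun i => by
      have h1 : (fun j => if i = j then (1 : ZMod p) else 0) ∈ Submodule.span (ZMod p)
          (Set.range (flip fun j (n : ℕ) =>
            coeff n ((b j : ↥(ordModP p k)) : PowerSeries (ZMod p)))) := by
        rw [span_flip_eq_top_iff_linearIndependent.2 hind]
        trivial
      obtain ⟨a, ha⟩ := Finsupp.mem_span_range_iff_exists_finsupp.1 h1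
      refine ⟨a, fun j => ?_⟩
      have h2 := congrFun ha j
      simp only [Finsupp.sum, Finset.sum_apply, Pi.smul_apply, smul_eq_mul, flip] at h2
      rw [← h2, coeffComb, Finsupp.sum]
      exact Finset.sum_congr rfl fun n _ => by rw [ZMod.natCast_zmod_val]
  choose a ha using hdual
  obtain ⟨M, hM⟩ : ∃ M : Matrix (Fin (Module.finrank (ZMod p) ↥(ordModP p k)))
      (Fin (Module.finrank (ZMod p) ↥(ordModP p k))) Λ, ∀ i j, M i j = coeffComb (a i) (G j) :=
    ⟨fun i j => coeffComb (a i) (G j), fun _ _ => rfl⟩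
  have hMd : IsUnit M.det := by
    obtain ⟨φ, hφ⟩ : ∃ φ : Λ →+* ZMod p, φ = PadicInt.toZMod.comp constantCoeff := ⟨_, rfl⟩
    have h1 : φ.mapMatrix M = 1 := by
      ext i j
      rw [RingHom.mapMatrix_apply, Matrix.map_apply, hM, Matrix.one_apply, hφ, RingHom.comp_apply,
        ← toZMod_evalLam (hp2 := hp2) 0, map_coeffComb, map_coeffComb,
        show PowerSeries.map PadicInt.toZMod (PowerSeries.map (evalLam hp2 0) (G j)) =
          (b j : PowerSeries (ZMod p)) from hGr j 0, ha]
    have h2 : φ M.det = 1 := by rw [RingHom.map_det, h1, Matrix.det_one]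
    rw [PowerSeries.isUnit_iff_constantCoeff]
    by_contra hu
    rw [hφ, RingHom.comp_apply,
      FA.PadicIwasawa.toZMod_eq_zero_iff_norm.2 (PadicInt.not_isUnit_iff.1 hu)] at h2
    exact zero_ne_one h2
  have hMs : ∀ s x, (evalLam hp2 s).mapMatrix M *ᵥ x = 0 → x = 0 := fun s x hx => by
    have hd : IsUnit ((evalLam hp2 s).mapMatrix M).det := by
      rw [← RingHom.map_det]
      exact hMd.map _
    have := congrArg (((evalLam hp2 s).mapMatrix M)⁻¹ *ᵥ ·) hx
    simp only [Matrix.mulVec_mulVec, Matrix.nonsing_inv_mul _ hd, Matrix.one_mulVec,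
      Matrix.mulVec_zero] at this
    exact this
  have hMeval : ∀ s i x, coeffComb (a i) (∑ j, C (x j) * spec hp2 s (G j)) =
      ((evalLam hp2 s).mapMatrix M *ᵥ x) i := fun s i x => by
    rw [coeffComb_sum, Matrix.mulVec, dotProduct]
    refine Finset.sum_congr rfl fun j _ => ?_
    rw [RingHom.mapMatrix_apply, Matrix.map_apply, hM, map_coeffComb]
    rfl
  have hgen : ∀ F, IsLamOrd hp2 c F → ∃ x : Fin _ → Λ, F = ∑ j, C (x j) * G j := fun F hF => by
    refine ⟨M⁻¹ *ᵥ fun i => coeffComb (a i) F, eq_of_spec (hp2 := hp2) fun s => ?_⟩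
    obtain ⟨x, hx⟩ : ∃ x, x = M⁻¹ *ᵥ fun i => coeffComb (a i) F := ⟨_, rfl⟩
    rw [← hx]
    have hH : IsLamOrd hp2 c (F - ∑ j, C (x j) * G j) := by
      refine (mem_lamOrd h5).1 (sub_mem ((mem_lamOrd h5).2 hF) (Submodule.sum_mem _ fun j _ => ?_))
      rw [← PowerSeries.smul_eq_C_mul]
      exact Submodule.smul_mem _ _ ((mem_lamOrd h5).2 (hG j))
    have hL : ∀ i, coeffComb (a i) (F - ∑ j, C (x j) * G j) = 0 := fun i => by
      have h2 : M *ᵥ x = fun i => coeffComb (a i) F := by
        rw [hx, Matrix.mulVec_mulVec, Matrix.mul_nonsing_inv _ hMd, Matrix.one_mulVec]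
      rw [coeffComb_sub, coeffComb_sum, sub_eq_zero, ← congrFun h2 i, Matrix.mulVec, dotProduct]
      exact Finset.sum_congr rfl fun j _ => by rw [hM]
    obtain ⟨y, hy⟩ := exists_combine h5 hk (κ := (c, s)) hc (fun j => hG j s) (hspan s)
      (hH s).1 (hH s).2
    have hy0 : y = 0 := hMs s y (funext fun i => by
      rw [← hMeval, ← combine, ← hy, spec, ← map_coeffComb, hL, map_zero, Pi.zero_apply])
    rw [hy0, combine] at hy
    rw [← sub_eq_zero, ← map_sub, hy]
    simp
  refine ⟨G, hG, ?_, ?_, fun s => ⟨linearIndependent_toQps (hli s),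
    ordPart_eq_span h5 hk hc (fun j => hG j s) (hspan s)⟩, fun s g hg hge => ?_,
    fun s F hF hF0 => ?_⟩
  · rw [Fintype.linearIndependent_iff]
    intro x hx
    have h1 : M *ᵥ x = 0 := funext fun i => by
      have h2 := congrArg (coeffComb (a i)) hx
      simp only [PowerSeries.smul_eq_C_mul, coeffComb_sum] at h2
      rw [show coeffComb (a i) (0 : PowerSeries Λ) = 0 by simp [coeffComb]] at h2
      rw [Pi.zero_apply, ← h2, Matrix.mulVec, dotProduct]
      exact Finset.sum_congr rfl fun j _ => by rw [hM]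
    have h3 := congrArg (M⁻¹ *ᵥ ·) h1
    simp only [Matrix.mulVec_mulVec, Matrix.nonsing_inv_mul _ hMd, Matrix.one_mulVec,
      Matrix.mulVec_zero] at h3
    exact fun j => congrFun h3 j
  · refine le_antisymm (fun F hF => ?_) (Submodule.span_le.2 ?_)
    · obtain ⟨x, rfl⟩ := hgen F ((mem_lamOrd h5).1 hF)
      refine Submodule.sum_mem _ fun j _ => ?_
      rw [← PowerSeries.smul_eq_C_mul]
      exact Submodule.smul_mem _ _ (Submodule.subset_span ⟨j, rfl⟩)
    · rintro _ ⟨j, rfl⟩
      exact (mem_lamOrd h5).2 (hG j)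
  · obtain ⟨x, hx⟩ := exists_combine h5 hk (κ := (c, s)) hc (fun j => hG j s) (hspan s) hg hge
    refine ⟨x, hx, fun y hy => sub_eq_zero.1 (hMs s (y - x) ?_)⟩
    rw [Matrix.mulVec_sub, sub_eq_zero]
    funext i
    rw [← hMeval, ← hMeval, ← hy, hx, combine]
  · obtain ⟨x, rfl⟩ := hgen F hF
    rw [map_sum] at hF0
    simp only [map_mul, spec_C] at hF0
    have hx0 : (fun j => evalLam hp2 s (x j)) = 0 := hMs s _ (funext fun i => by
      rw [← hMeval, hF0]
      simp [coeffComb])
    choose q hq using fun j => X_sub_C_dvd (hp2 := hp2) s (x j) (congrFun hx0 j)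
    refine ⟨∑ j, C (q j) * G j, (mem_lamOrd h5).1 (Submodule.sum_mem _ fun j _ => ?_), ?_⟩
    · rw [← PowerSeries.smul_eq_C_mul]
      exact Submodule.smul_mem _ _ ((mem_lamOrd h5).2 (hG j))
    · rw [Finset.mul_sum]
      refine Finset.sum_congr rfl fun j _ => ?_
      rw [hq j, map_mul, mul_assoc]

end FA.LambdaForms

end
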