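import Fermat.Agent.OrdinaryProj.Series
import Fermat.Agent.PadicIwasawa.Exponential
import Mathlib.Topology.Sequences
import Mathlib.Analysis.Normed.Ring.InfiniteSum

/-!
# The Iwasawa algebra and Iwasawa functions

`Λ = ℤ_p⟦T⟧` is evaluated at `T = (1 + p) ^ s - 1`. The functions of `s` so obtained form a ring
closed under pointwise limits, as `Λ` is compact; two series with the same function are equal.
-/

set_option autoImplicit false
set_option linter.unusedSectionVars false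

noncomputable section

open PowerSeries Filter Topology

namespace FA.LambdaForms

open FA.PadicForms FA.PadicIwasawa

variable {p : ℕ} [Fact p.Prime]

local notation "Λ" => PowerSeries ℤ_[p]

/-- The value `(1 + p) ^ s - 1` of `T`. -/
def xAt (s : ℤ_[p]) : ℤ_[p] := expOne p s - 1

theorem xAt_zero : xAt (0 : ℤ_[p]) = 0 := by rw [xAt, AddChar.map_zero_eq_one, sub_self]

theorem norm_xAt_le (hp2 : p ≠ 2) (s : ℤ_[p]) : ‖xAt s‖ ≤ (p : ℝ)⁻¹ := by
  have h : (p : ℤ_[p]) ^ 1 ∣ xAt s := by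
    rw [pow_one, ← PadicInt.norm_lt_one_iff_dvd]
    exact norm_expOne_sub_one_lt hp2 s
  have := FA.OrdinaryProj.norm_le_iff_dvd.2 h
  rwa [show ((1 : ℕ) : ℤ) = (1 : ℤ) from rfl, zpow_neg, zpow_one] at this

theorem continuous_xAt : Continuous (xAt (p := p)) :=
  continuous_expOne.sub continuous_const

theorem norm_xAt_lt (hp2 : p ≠ 2) (s : ℤ_[p]) : ‖xAt s‖ < 1 :=
  (norm_xAt_le hp2 s).trans_lt inv_prime_lt_one'

theorem summable_term (θ : Λ) {x : ℤ_[p]} (hx : ‖x‖ < 1) :
    Summable fun j => ‖coeff j θ * x ^ j‖ := by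
  refine Summable.of_nonneg_of_le (fun j => norm_nonneg _) (fun j => ?_)
    (summable_geometric_of_lt_one (norm_nonneg x) hx)
  rw [norm_mul, norm_pow]
  exact mul_le_of_le_one_left (pow_nonneg (norm_nonneg x) j) (PadicInt.norm_le_one _)

/-- The value of a series at a point of `p ℤ_p`. -/
def valueAt (x : ℤ_[p]) (θ : Λ) : ℤ_[p] := ∑' j, coeff j θ * x ^ j

theorem valueAt_C (x c : ℤ_[p]) : valueAt x (C c) = c := by
  rw [valueAt, tsum_eq_single 0 fun j hj => by simp [coeff_C, hj]]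
  simp

theorem valueAt_X (x : ℤ_[p]) : valueAt x (X : Λ) = x := by
  rw [valueAt, tsum_eq_single 1 fun j hj => by simp [coeff_X, hj]]
  simp

theorem valueAt_mul {x : ℤ_[p]} (hx : ‖x‖ < 1) (θ η : Λ) :
    valueAt x (θ * η) = valueAt x θ * valueAt x η := by
  rw [valueAt, valueAt, valueAt, tsum_mul_tsum_eq_tsum_sum_antidiagonal_of_summable_norm
    (summable_term θ hx) (summable_term η hx)]
  refine tsum_congr fun i => ?_
  rw [coeff_mul, Finset.sum_mul]
  refine Finset.sum_congr rfl fun kl hkl => ?_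
  rw [Finset.HasAntidiagonal.mem_antidiagonal] at hkl
  rw [← hkl, pow_add]
  ring

theorem valueAt_add {x : ℤ_[p]} (hx : ‖x‖ < 1) (θ η : Λ) :
    valueAt x (θ + η) = valueAt x θ + valueAt x η := by
  simp only [valueAt, map_add, add_mul]
  exact (summable_term θ hx).of_norm.tsum_add (summable_term η hx).of_norm

/-- **Evaluation at `T = (1 + p) ^ s - 1`.** -/
def evalLam (hp2 : p ≠ 2) (s : ℤ_[p]) : Λ →+* ℤ_[p] where
  toFun := valueAt (xAt s)
  map_zero' := by simp [valueAt]
  map_one' := by rw [← map_one (C : ℤ_[p] →+* Λ), valueAt_C]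
  map_add' := valueAt_add (norm_xAt_lt hp2 s)
  map_mul' := valueAt_mul (norm_xAt_lt hp2 s)

variable {hp2 : p ≠ 2}

theorem evalLam_apply (s : ℤ_[p]) (θ : Λ) : evalLam hp2 s θ = ∑' j, coeff j θ * xAt s ^ j := rfl

@[simp]
theorem evalLam_C (s c : ℤ_[p]) : evalLam hp2 s (C c) = c := valueAt_C _ _

theorem evalLam_X (s : ℤ_[p]) : evalLam hp2 s (X : Λ) = expOne p s - 1 := valueAt_X _

theorem toZMod_evalLam (s : ℤ_[p]) (θ : Λ) :
    PadicInt.toZMod (evalLam hp2 s θ) = PadicInt.toZMod (constantCoeff θ) := by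
  have h := eq_X_mul_shift_add_const θ
  conv_lhs => rw [h]
  have hx : PadicInt.toZMod (xAt s) = 0 := toZMod_eq_zero_iff_norm.2 (norm_xAt_lt hp2 s)
  rw [map_add, map_mul, evalLam_C, evalLam_X, map_add, map_mul, show expOne p s - 1 = xAt s from rfl,
    hx, zero_mul, zero_add]

/-- `(1 + T) ^ a`. -/
def onePlus (a : ℤ_[p]) : Λ := PowerSeries.mk fun j => mahler j a

theorem evalLam_onePlus (a s : ℤ_[p]) :
    evalLam hp2 s (onePlus a) = expOne p (a * s) := by
  rw [evalLam_apply]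
  refine (HasSum.tsum_eq ?_)
  simpa [onePlus, xAt] using hasSum_expOne_mul hp2 a s

/-- Evaluation is continuous in the coefficients. -/
theorem tendsto_evalLam {θs : ℕ → Λ} {θ : Λ}
    (h : ∀ j, Tendsto (fun i => coeff j (θs i)) atTop (𝓝 (coeff j θ))) (s : ℤ_[p]) :
    Tendsto (fun i => evalLam hp2 s (θs i)) atTop (𝓝 (evalLam hp2 s θ)) := by
  refine tendsto_iff_norm_sub_tendsto_zero.2 (Metric.tendsto_atTop.2 fun ε hε => ?_)
  obtain ⟨N, hN⟩ := exists_pow_lt_of_lt_one (half_pos hε) (inv_prime_lt_one' (p := p))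
  have hev : ∀ᶠ i in atTop, ∀ j ∈ Finset.range N, ‖coeff j (θs i) - coeff j θ‖ ≤ ε / 2 := by
    rw [eventually_all_finset]
    intro j _
    exact ((tendsto_iff_norm_sub_tendsto_zero.1 (h j)).eventually (ge_mem_nhds (half_pos hε)))
  obtain ⟨M, hM⟩ := eventually_atTop.1 hev
  refine ⟨M, fun i hi => ?_⟩
  rw [Real.dist_eq, sub_zero, abs_of_nonneg (norm_nonneg _)]
  refine lt_of_le_of_lt ?_ (half_lt_self hε)
  rw [← map_sub, evalLam_apply]
  refine IsUltrametricDist.norm_tsum_le_of_forall_le_of_nonneg (half_pos hε).le fun j => ?_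
  rw [norm_mul, norm_pow, map_sub]
  rcases lt_or_ge j N with hj | hj
  · exact (mul_le_of_le_one_right (norm_nonneg _)
      (pow_le_one₀ (norm_nonneg _) (PadicInt.norm_le_one _))).trans
      (hM i hi j (Finset.mem_range.2 hj))
  · refine (mul_le_of_le_one_left (pow_nonneg (norm_nonneg _) _) (PadicInt.norm_le_one _)).trans
      (le_trans ?_ hN.le)
    exact (pow_le_pow_left₀ (norm_nonneg _) (norm_xAt_le hp2 s) j).trans
      (pow_le_pow_of_le_one (by positivity) inv_prime_lt_one'.le hj)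

/-- Evaluation is `1`-Lipschitz in the point. -/
theorem norm_evalLam_sub (θ : Λ) (s t : ℤ_[p]) :
    ‖evalLam hp2 s θ - evalLam hp2 t θ‖ ≤ ‖xAt s - xAt t‖ := by
  rw [evalLam_apply, evalLam_apply, ← (summable_term θ (norm_xAt_lt hp2 s)).of_norm.tsum_sub
    (summable_term θ (norm_xAt_lt hp2 t)).of_norm]
  refine IsUltrametricDist.norm_tsum_le_of_forall_le_of_nonneg (norm_nonneg _) fun j => ?_
  obtain ⟨c, hc⟩ := sub_dvd_pow_sub_pow (xAt s) (xAt t) j
  rw [← mul_sub, hc, norm_mul, norm_mul]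
  exact (mul_le_of_le_one_left (by positivity) (PadicInt.norm_le_one _)).trans
    (mul_le_of_le_one_right (norm_nonneg _) (PadicInt.norm_le_one _))

theorem continuous_evalLam (θ : Λ) : Continuous fun s => evalLam hp2 s θ := by
  refine continuous_iff_continuousAt.2 fun s => ?_
  refine tendsto_iff_norm_sub_tendsto_zero.2 ?_
  refine squeeze_zero (fun t => norm_nonneg _) (fun t => norm_evalLam_sub θ t s) ?_
  exact tendsto_iff_norm_sub_tendsto_zero.1 (continuous_xAt.tendsto s)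

/-- **Two series with the same values are equal.** -/
theorem eq_zero_of_evalLam {θ : Λ} (h : ∀ s, evalLam hp2 s θ = 0) : θ = 0 := by
  have hp : p.Prime := Fact.out
  suffices key : ∀ n, ∀ θ : Λ, (∀ s, evalLam hp2 s θ = 0) → coeff n θ = 0 from
    PowerSeries.ext fun n => by rw [key n θ h, map_zero]
  have hzero : ∀ θ : Λ, (∀ s, evalLam hp2 s θ = 0) → constantCoeff θ = 0 := fun θ hθ => by
    have h0 := hθ 0
    conv at h0 => lhs; rw [eq_X_mul_shift_add_const θ]
    rwa [map_add, map_mul, evalLam_C, evalLam_X, AddChar.map_zero_eq_one, sub_self, zero_mul,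
      zero_add] at h0
  intro n
  induction n with
  | zero => exact fun θ hθ => by rw [coeff_zero_eq_constantCoeff_apply]; exact hzero θ hθ
  | succ n ih =>
    intro θ hθ
    obtain ⟨η, hη⟩ : ∃ η : Λ, η = PowerSeries.mk fun j => coeff (j + 1) θ := ⟨_, rfl⟩
    have hfac : θ = X * η := by
      conv_lhs => rw [eq_X_mul_shift_add_const θ]
      rw [hzero θ hθ, map_zero, add_zero, hη]
    have hne : ∀ s, s ≠ 0 → evalLam hp2 s η = 0 := fun s hs => by
      have h1 := hθ s
      rw [hfac, map_mul, evalLam_X, mul_eq_zero] at h1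
      refine h1.resolve_left fun e => hs (expOne_injective hp2 ?_)
      rw [AddChar.map_zero_eq_one]
      exact sub_eq_zero.1 e
    have h0 : evalLam hp2 0 η = 0 := by
      have ht : Tendsto (fun i : ℕ => ((p : ℤ_[p]) ^ i)) atTop (𝓝 0) :=
        tendsto_pow_atTop_nhds_zero_of_norm_lt_one norm_prime_lt_one
      refine tendsto_nhds_unique (((continuous_evalLam (hp2 := hp2) η).tendsto 0).comp ht)
        (tendsto_const_nhds.congr fun i => (hne _ (pow_ne_zero _ ?_)).symm)
      exact Nat.cast_ne_zero.2 hp.ne_zero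
    have := ih η fun s => (eq_or_ne s 0).elim (fun e => e ▸ h0) (hne s)
    rwa [hη, coeff_mk] at this

theorem evalLam_ext {θ η : Λ} (h : ∀ s, evalLam hp2 s θ = evalLam hp2 s η) : θ = η :=
  sub_eq_zero.1 (eq_zero_of_evalLam (hp2 := hp2) fun s => by rw [map_sub, h, sub_self])

/-- The functions given by series. -/
def IsIw (hp2 : p ≠ 2) (f : ℤ_[p] → ℤ_[p]) : Prop := ∃ θ : Λ, ∀ s, evalLam hp2 s θ = f s

/-- A coefficientwise convergent subsequence. -/
theorem exists_subseq (θs : ℕ → Λ) : ∃ (θ : Λ) (φ : ℕ → ℕ), StrictMono φ ∧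
    ∀ j, Tendsto (fun i => coeff j (θs (φ i))) atTop (𝓝 (coeff j θ)) := by
  obtain ⟨a, φ, hφ, ha⟩ := CompactSpace.tendsto_subseq fun i => fun j => coeff j (θs i)
  exact ⟨PowerSeries.mk a, φ, hφ, fun j => by rw [coeff_mk]; exact tendsto_pi_nhds.1 ha j⟩

/-- **Iwasawa functions are closed under limits.** -/
theorem IsIw.of_tendsto {fs : ℕ → ℤ_[p] → ℤ_[p]} {f : ℤ_[p] → ℤ_[p]}
    (h : ∀ i, IsIw hp2 (fs i)) (hlim : ∀ s, Tendsto (fun i => fs i s) atTop (𝓝 (f s))) :
    IsIw hp2 f := by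
  choose θs hθs using h
  obtain ⟨θ, φ, hφ, hθ⟩ := exists_subseq θs
  refine ⟨θ, fun s => tendsto_nhds_unique (tendsto_evalLam hθ s) ?_⟩
  exact ((hlim s).comp hφ.tendsto_atTop).congr fun i => (hθs _ s).symm

/-- **Translation.** -/
theorem exists_shift (c : ℤ_[p]) (θ : Λ) :
    ∃ η : Λ, ∀ s, evalLam hp2 s η = evalLam hp2 (s + c) θ := by
  refine IsIw.of_tendsto (hp2 := hp2)
    (fs := fun N s => ∑ j ∈ Finset.range N, coeff j θ * xAt (s + c) ^ j) (fun N => ?_) fun s => ?_
  · refine ⟨∑ j ∈ Finset.range N, C (coeff j θ) * (C (expOne p c) * (1 + X) - 1) ^ j, fun s => ?_⟩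
    rw [map_sum]
    refine Finset.sum_congr rfl fun j _ => ?_
    rw [map_mul, map_pow, map_sub, map_mul, map_add, map_one, evalLam_C, evalLam_C, evalLam_X, xAt,
      add_sub_cancel, AddChar.map_add_eq_mul, mul_comm (expOne p c)]
  · exact (summable_term θ (norm_xAt_lt hp2 _)).of_norm.hasSum.tendsto_sum_nat

end FA.LambdaForms

end
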